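import Fermat.Agent.FINISH.Low
import Fermat.Agent.DR.SC.Main

/-!
# S38, S59
-/

set_option autoImplicit false

namespace Fermat.Agent.FINISH

open Fermat.Agent.RT.Wiring Fermat.Agent.Descent

/-- **S38** -/
theorem h38 : S38Prop := s38_of_scalar Fermat.Agent.DR.SC.scalarGen

/-- **S59** -/
theorem s59Final : S59Prop := s59_of_scalar Fermat.Agent.DR.SC.scalarGen

end Fermat.Agent.FINISH
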