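import Fermat.Agent.FINISH.Last
import Fermat.Agent.FINISH.DoneLow

/-!
# All the inputs of S01
-/

set_option autoImplicit false

namespace Fermat.Agent.FINISH

/-- all the inputs of S01 -/
theorem inputs : Inputs := inputs_of_scalar Fermat.Agent.DR.SC.scalarGen

end Fermat.Agent.FINISH
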