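import Fermat.Agent.FINISH.S58
import Fermat.Agent.DR.S36.Final

set_option autoImplicit false

namespace Fermat.Agent.FINISH

open Fermat.Agent.CMP.S58Assembly

/-- S36, as a `Prop` -/
theorem h36 : S36Prop := Fermat.Agent.DR.S36.s36Prop

end Fermat.Agent.FINISH
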