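import Fermat.Agent.FINISH.S60
import Fermat.Agent.FINISH.DoneLow

/-!
# S60
-/

set_option autoImplicit false

namespace Fermat.Agent.FINISH

open Fermat.Agent.Descent

/-- semistable modularity, exact conductor level -/
theorem h60 : S60Exact := s60Exact s59Final

end Fermat.Agent.FINISH
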