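import Fermat.Agent.FINISH.S59
import Fermat.Agent.FINISH.Done36
import Fermat.Agent.RT8.OldFinal
import Fermat.Agent.RT.Wiring.FinalA
import Fermat.Agent.DR.S39.Final
import Fermat.Agent.DR.S38.MazurIn

/-!
# S38, S59 from `ScalarGen`
-/

set_option autoImplicit false

namespace Fermat.Agent.FINISH

open Fermat.Agent.CMP.S58Assembly Fermat.Agent.RT.Wiring Fermat.Agent.RT8 Fermat.Agent.Descent

/-- `MLT` -/
theorem mltFinal : MLT := mlt_of_s36 h36

/-- S39 (semistable models) -/
theorem h39 : S39Prop := DR.S39.s39Prop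

/-- S38 from the scalar case -/
theorem s38_of_scalar (hS : DR.S38.ScalarGen) : S38Prop := DR.S38.s38_of DR.S38.mazurInputs h39 hS

/-- S59 from the scalar case -/
theorem s59_of_scalar (hS : DR.S38.ScalarGen) : S59Prop :=
  s59 h36 (s38_of_scalar hS) h39 mltFinal RT8.l2Odd

end Fermat.Agent.FINISH
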