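import Fermat.Agent.FINISH.S01
import Fermat.Agent.FINISH.Low
import Fermat.Agent.P2.Sys.Main
import Fermat.Agent.P2.Mazur2k.Final
import Fermat.Agent.P2.End.Main

/-!
# S01 from the scalar case (route P2)
-/

set_option autoImplicit false

namespace Fermat.Agent.FINISH

open Fermat.Agent.CMP.S58Assembly Fermat.Agent.RT.Wiring Fermat.Agent.RT8 Fermat.Agent.Descent

/-- Route P2: the auxiliary curves are modular. -/
theorem curveModularFinal : P2.CurveModular :=
  curveModular_of P2.Sys.block5Out P2.block6Out P2.End.block7b

/-- all the inputs, from the scalar case -/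
theorem inputs_of_scalar (hS : DR.S38.ScalarGen) : Inputs where
  p2 := curveModularFinal
  s36 := h36
  s38 := s38_of_scalar hS
  s39 := h39
  mlt := mltFinal

end Fermat.Agent.FINISH
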