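import Fermat.Agent.FINISH.S01
import Fermat.Agent.FINISH.Done36
import Fermat.Agent.RT.Wiring.Frozen
import Fermat.Agent.RT.TypeInputs
import Fermat.Agent.S56
import Fermat.Agent.DR.S39.Statement
import Fermat.Agent.DR.AtP.AtPCoreProof
import Fermat.Agent.DR.S38.OfGeo
import Fermat.Agent.DR.Mod.SpecGeo
import Fermat.Agent.P2.Six.Main
import Fermat.Agent.P2.End.Main
import Fermat.Agent.P2.B34.Main

/-!
# S01 from the remaining open inputs
-/

set_option autoImplicit false

namespace Fermat.Agent.FINISH

open Fermat.Agent.CMP.S58Assembly Fermat.Agent.RT.Wiring Fermat.Agent.RT8 Fermat.Agent.Descent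

/-- S56, as a `Prop` -/
theorem h56 : S56Prop :=
  fun p _ hp2 hp𝒪 ρbar habs hdet hsplit hTW S Smin hpSmin hSmin hS hmin =>
    Fermat.Agent.S56.result p hp2 hp𝒪 ρbar habs hdet hsplit hTW S Smin hpSmin hSmin hS hmin

/-- `MLT` -/
theorem mlt : MLT := mlt_of_frozen RT.Typ.inputs h36 h56

/-- S39 (semistable models) from the geometric input -/
theorem s39 (h : DR.S39.AtPInputs) : S39Prop := DR.S39.s39_of h fun p _ => DR.AtP.atPCore p

/-- The geometric input of S38 -/
theorem mazurInputs : DR.S38.MazurInputs :=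
  DR.S38.mazurInputs_of_geo fun M q _ _ hrig => DR.Mod.geoInputE_one M q hrig

/-- S38 from the scalar case and S39 -/
theorem s38 (h39 : S39Prop) (hS : DR.S38.ScalarGen) : S38Prop :=
  DR.S38.s38_of mazurInputs h39 hS

/-- route P2 from Block 5 -/
theorem curveModular (h5 : P2.Block5Out) : P2.CurveModular :=
  curveModular_of h5 (P2.Six.block6Out fun M q _ _ => DR.Mod.geoInput M q) P2.End.block7b

/-- The remaining open inputs. -/
structure Open : Prop where
  b5 : P2.Block5Out
  scalar : DR.S38.ScalarGen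
  atp : DR.S39.AtPInputs

theorem inputs_of_open (h : Open) : Inputs where
  p2 := curveModular h.b5
  s36 := h36
  s38 := s38 (s39 h.atp) h.scalar
  s39 := s39 h.atp
  mlt := mlt

end Fermat.Agent.FINISH
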