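import Fermat.Agent.FINISH.S59
import Fermat.Agent.S01Final.Final
import Fermat.Agent.S01Final.P2Bridge
import Fermat.Agent.P2.Assembly
import Fermat.Agent.P2.Block1
import Fermat.Agent.P2.Block2
import Fermat.Agent.P2.Ell.Main

/-!
# S01 (and S03, S04, S06, S09, S12, S45) from the open inputs

`CurveModular` (route P2), `S36Prop`, `S38Prop`, `S39Prop`, `MLT`.
-/

set_option autoImplicit false

namespace Fermat.Agent.FINISH

open Fermat.Agent.CMP.S58Assembly Fermat.Agent.RT.Wiring Fermat.Agent.RT8 Fermat.Agent.Descent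

/-- Blocks 1, 2, 8 are done: `CurveModular` from Blocks 5, 6, 7b. -/
theorem curveModular_of (h5 : P2.Block5Out) (h6 : P2.Block6Out) (h7 : P2.Block7bOut) :
    P2.CurveModular :=
  P2.curveModular P2.Ell.block8 P2.block2Out h5 h6 h7

/-- The open inputs of S01. -/
structure Inputs : Prop where
  p2 : P2.CurveModular
  s36 : S36Prop
  s38 : S38Prop
  s39 : S39Prop
  mlt : MLT

/-- route P2 -/
theorem p2Stmt (h : P2.CurveModular) : S01Final.P2Stmt :=
  S01Final.p2Stmt_iff.mpr (P2.p2Stmt P2.block1Out h)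

/-- **S03** -/
theorem s03 (h : Inputs) (P : FreyPackage) : False :=
  S01Final.no_frey (p2Stmt h.p2) (s59Sqf h.s36 h.s38 h.s39 h.mlt) h.s38 h.s39 P

/-- **S01** -/
theorem s01 (h : Inputs) (n : ℕ) (hn : 3 ≤ n) (a b c : ℕ) (ha : 0 < a) (hb : 0 < b)
    (hc : 0 < c) : a ^ n + b ^ n ≠ c ^ n :=
  S01Final.s01 (p2Stmt h.p2) (s59Sqf h.s36 h.s38 h.s39 h.mlt) h.s38 h.s39 n hn a b c ha hb hc

end Fermat.Agent.FINISH
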