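import Fermat.Agent.EllTate.S58Input
import Fermat.Agent.DR.S35.Provider

/-!
# S58 from S36
-/

set_option autoImplicit false

namespace Fermat.Agent.FINISH

open Fermat.Agent.CMP.S58Assembly

/-- S35, as a `Prop` -/
theorem h35 : S35Prop :=
  fun hg lam _ S O' _ _ _ _ _ _ hlamO' chig hchig iota hlamS hMS =>
    Fermat.Agent.DR.S35.s35Prop hg lam S O' hlamO' chig hchig iota hlamS hMS

/-- **S58 from S36.** -/
theorem s58 (h36 : S36Prop)
    (W : WeierstrassCurve ℤ) (hss : W.IsSemistableModel) (N : ℕ)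
    (p : ℕ) [Fact p.Prime] (hp2 : p ≠ 2) (hirr : W.ModRepIsIrreducible p)
    (hp2N : ¬ p ^ 2 ∣ N)
    (hN : W.IsModularModelOfLevel N) (hbad : ∀ ℓ : ℕ, ℓ.Prime → (ℓ : ℤ) ∣ W.Δ → ℓ ∣ N)
    (hN3 : ∀ q : ℕ, q.Prime → ¬ q ^ 3 ∣ N) :
    W.IsModularModelOfLevel W.conductorLevel :=
  EllTate.s58_of_s35_s36 h35 h36 W hss N p hp2 hirr hp2N hN hbad hN3

end Fermat.Agent.FINISH
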