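import Fermat.Agent.FINISH.S58
import Fermat.Agent.RT8.S59Sqf
import Fermat.Agent.RT8.Final

/-!
# S59 from S36, S38, S39, `MLT` (and `L2Odd`)
-/

set_option autoImplicit false

namespace Fermat.Agent.FINISH

open Fermat.Agent.CMP.S58Assembly Fermat.Agent.RT.Wiring Fermat.Agent.RT8 Fermat.Agent.Descent

/-- **S59, squarefree residual level** (enough for S01) -/
theorem s59Sqf (h36 : S36Prop) (h38 : S38Prop) (h39 : S39Prop) (hMLT : MLT) : S59Sqf :=
  RT8.s59sqf_of h38 h39 hMLT h35 h36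

/-- **S59** -/
theorem s59 (h36 : S36Prop) (h38 : S38Prop) (h39 : S39Prop) (hMLT : MLT) (hodd : L2Odd) :
    S59Prop :=
  s59_of (levelOpt h38 h39 h36 hodd) hMLT h35 h36

end Fermat.Agent.FINISH
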