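import Fermat.Agent.FINISH.S59
import Fermat.Agent.S60Wiring
import Fermat.Agent.S50
import Fermat.Agent.S51
import Fermat.Agent.S52
import Fermat.Agent.L9.Main
import Fermat.Agent.Descent.Main

/-!
# S60 (Langlands–Tunnell route) from S59, and the descent
-/

set_option autoImplicit false

namespace Fermat.Agent.FINISH

open Fermat.Agent.RT.Wiring Fermat.Agent.Descent

/-- semistable modularity, exact conductor level, from S59 -/
theorem s60Exact (h59 : S59Prop) : S60Exact := fun W hΔ hW =>
  S60Wiring.exactConductor (fun W hΔ hW h3 => Fermat.Agent.S50.result W hΔ hW h3)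
    (fun W hΔ hW => Fermat.Agent.S51.result W hΔ hW)
    (fun W hΔ hW h5 => Fermat.Agent.S52.result W hΔ hW h5)
    h59 Fermat.Agent.L9.l9 W hΔ hW

/-- **S60** from S59 -/
theorem s60 (h59 : S59Prop) (W : WeierstrassCurve ℤ) (hΔ : W.Δ ≠ 0) (hW : W.IsSemistableModel) :
    (W.map (Int.castRingHom ℚ)).IsModular :=
  S60Wiring.isModular_of_exactConductor (s60Exact h59 W hΔ hW)

end Fermat.Agent.FINISH
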